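/-
Program A (S29 + S42), leaf RIG, part 2: coefficient bookkeeping in `R ⊗[k] F`.

`cm θ : R ⊗[k] F →ₐ[k] R' ⊗[k] F` is "apply `θ` to the coefficients".  We prove: injectivity for
injective `θ`, every element of `C ⊗[k] F` has its coefficients in a finitely generated
subalgebra, a nonzero element has a nonzero coordinate (natural in `θ`), and an element whose
coefficients are sent into `k` becomes `1 ⊗ x`.
-/
import Mathlib

set_option autoImplicit false

namespace Fermat.Agent.S42.H59

open scoped TensorProduct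

variable {k F : Type*} [Field k] [Field F] [Algebra k F]
variable {R R' R'' : Type*} [CommRing R] [Algebra k R] [CommRing R'] [Algebra k R']
  [CommRing R''] [Algebra k R'']

/-- Apply a `k`-algebra homomorphism to the coefficients of an element of `R ⊗[k] F`. -/
noncomputable def cm (F : Type*) [Field F] [Algebra k F] (θ : R →ₐ[k] R') :
    R ⊗[k] F →ₐ[k] R' ⊗[k] F :=
  Algebra.TensorProduct.map θ (AlgHom.id k F)

@[simp]
theorem cm_tmul (θ : R →ₐ[k] R') (r : R) (x : F) : cm F θ (r ⊗ₜ[k] x) = θ r ⊗ₜ[k] x := by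
  simp [cm]

theorem cm_comp (θ : R →ₐ[k] R') (θ' : R' →ₐ[k] R'') (z : R ⊗[k] F) :
    cm F (θ'.comp θ) z = cm F θ' (cm F θ z) := by
  induction z using TensorProduct.induction_on with
  | zero => simp
  | tmul r x => simp
  | add a b ha hb => rw [map_add, map_add, map_add, ha, hb]

theorem cm_id (z : R ⊗[k] F) : cm F (AlgHom.id k R) z = z := by
  induction z using TensorProduct.induction_on with
  | zero => simp
  | tmul r x => simp
  | add a b ha hb => rw [map_add, ha, hb]

theorem cm_injective (θ : R →ₐ[k] R') (hθ : Function.Injective θ) :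
    Function.Injective (cm F θ) := by
  have h1 : Function.Injective (LinearMap.rTensor F θ.toLinearMap) :=
    Module.Flat.rTensor_preserves_injective_linearMap θ.toLinearMap hθ
  have h2 : ∀ z : R ⊗[k] F, cm F θ z = LinearMap.rTensor F θ.toLinearMap z := by
    intro z
    induction z using TensorProduct.induction_on with
    | zero => simp
    | tmul r x => simp
    | add a b ha hb => rw [map_add, map_add, ha, hb]
  intro z z' h
  apply h1
  rw [← h2, ← h2, h]

/-- Every element of `C ⊗[k] F` has its coefficients in a finitely generated subalgebra. -/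
theorem exists_finset_mem_range {C : Type*} [Field C] [Algebra k C] (t : C ⊗[k] F) :
    ∃ S : Finset C, ∀ R₁ : Subalgebra k C, (S : Set C) ⊆ R₁ →
      ∃ z : R₁ ⊗[k] F, cm F R₁.val z = t := by
  classical
  induction t using TensorProduct.induction_on with
  | zero => exact ⟨∅, fun R₁ _ => ⟨0, map_zero _⟩⟩
  | tmul c x =>
    refine ⟨{c}, fun R₁ h => ⟨⟨c, h (by simp)⟩ ⊗ₜ x, ?_⟩⟩
    simp
  | add a b ha hb =>
    obtain ⟨S₁, h₁⟩ := ha
    obtain ⟨S₂, h₂⟩ := hb
    refine ⟨S₁ ∪ S₂, fun R₁ h => ?_⟩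
    obtain ⟨z₁, hz₁⟩ := h₁ R₁ (fun y hy => h (by simp [Finset.mem_coe.mp hy]))
    obtain ⟨z₂, hz₂⟩ := h₂ R₁ (fun y hy => h (by simp [Finset.mem_coe.mp hy]))
    exact ⟨z₁ + z₂, by rw [map_add, hz₁, hz₂]⟩

/-- Naturality of coordinates with respect to `cm`. -/
theorem repr_cm {ι : Type*} (b : Module.Basis ι k F) (θ : R →ₐ[k] R') (z : R ⊗[k] F) (i : ι) :
    (Algebra.TensorProduct.basis R' b).repr (cm F θ z) i =
      θ ((Algebra.TensorProduct.basis R b).repr z i) := by
  induction z using TensorProduct.induction_on with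
  | zero => simp
  | tmul r x =>
    rw [cm_tmul, Algebra.TensorProduct.basis_repr_tmul, Algebra.TensorProduct.basis_repr_tmul]
    simp
  | add a c ha hc => simp [ha, hc]

/-- A nonzero element of `R ⊗[k] F` has a nonzero coordinate `r`; any `θ` not killing `r` does
not kill the element. -/
theorem exists_coord (R' : Type*) [CommRing R'] [Algebra k R'] (z : R ⊗[k] F) (hz : z ≠ 0) :
    ∃ r : R, r ≠ 0 ∧ ∀ θ : R →ₐ[k] R', θ r ≠ 0 → cm F θ z ≠ 0 := by
  let b := Module.Basis.ofVectorSpace k F
  have h1 : (Algebra.TensorProduct.basis R b).repr z ≠ 0 := by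
    intro h
    exact hz ((Algebra.TensorProduct.basis R b).repr.map_eq_zero_iff.mp h)
  obtain ⟨i, hi⟩ := Finsupp.ne_iff.mp h1
  refine ⟨(Algebra.TensorProduct.basis R b).repr z i, by simpa using hi, ?_⟩
  intro θ hθ h0
  apply hθ
  rw [← repr_cm b θ z i, h0]
  simp

/-- If `θ` sends all coefficients into `k`, the image is of the form `1 ⊗ x`. -/
theorem exists_cm_eq_one_tmul (θ : R →ₐ[k] R')
    (hθ : ∀ r : R, θ r ∈ (algebraMap k R').range) (z : R ⊗[k] F) :
    ∃ x : F, cm F θ z = 1 ⊗ₜ[k] x := by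
  induction z using TensorProduct.induction_on with
  | zero => exact ⟨0, by simp⟩
  | tmul r x =>
    obtain ⟨κ, hκ⟩ := hθ r
    refine ⟨κ • x, ?_⟩
    rw [cm_tmul, ← hκ, Algebra.algebraMap_eq_smul_one, TensorProduct.smul_tmul]
  | add a c ha hc =>
    obtain ⟨x, hx⟩ := ha
    obtain ⟨y, hy⟩ := hc
    exact ⟨x + y, by rw [map_add, hx, hy, TensorProduct.tmul_add]⟩

end Fermat.Agent.S42.H59
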