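/-
Program A (S29 + S42), leaf RIG, part 1: the lifting lemma (Atiyah–Macdonald 5.23) in the
"subrings of a field" form.

`exists_lift_adjoin_finset` : `A ≤ B` subrings of a field `L`, `B` generated over `A` by finitely
many elements, `v ≠ 0` in `B`.  Then there is `u ≠ 0` in `A` such that every ring homomorphism
`f : A →+* Ω` into an algebraically closed field with `f u ≠ 0` extends to `g : B →+* Ω` with
`g v ≠ 0`.
-/
import Mathlib

set_option autoImplicit false

namespace Fermat.Agent.S42.H59

open Polynomial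

universe w

variable {L : Type*} [Field L]

/-- One-generator step, algebraic case: division with powers of the leading coefficient. -/
theorem exists_pow_mul_eq_mul_of_minimal {A B : Type*} [CommRing A] [IsDomain A] [CommRing B]
    (φ : A[X] →+* B) (Q : A[X]) (hQ : φ Q = 0)
    (hmin : ∀ P : A[X], P ≠ 0 → φ P = 0 → Q.natDegree ≤ P.natDegree) (hQ0 : Q ≠ 0) :
    ∀ P : A[X], φ P = 0 → ∃ (n : ℕ) (S : A[X]), C (Q.leadingCoeff ^ n) * P = Q * S := by
  have ha : Q.leadingCoeff ≠ 0 := leadingCoeff_ne_zero.mpr hQ0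
  have key : ∀ (d : ℕ) (P : A[X]), P.natDegree = d → φ P = 0 →
      ∃ (n : ℕ) (S : A[X]), C (Q.leadingCoeff ^ n) * P = Q * S := by
    intro d
    induction d using Nat.strong_induction_on with
    | _ d ih =>
      intro P hd hP
      by_cases hP0 : P = 0
      · exact ⟨0, 0, by simp [hP0]⟩
      have hdeg : Q.natDegree ≤ P.natDegree := hmin P hP0 hP
      obtain ⟨P', hP'⟩ : ∃ P', P' = C Q.leadingCoeff * P -
          C P.leadingCoeff * X ^ (P.natDegree - Q.natDegree) * Q := ⟨_, rfl⟩
      have hP'0 : φ P' = 0 := by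
        rw [hP', map_sub, map_mul, map_mul, hP, hQ, mul_zero, mul_zero, sub_zero]
      by_cases hP'z : P' = 0
      · refine ⟨1, C P.leadingCoeff * X ^ (P.natDegree - Q.natDegree), ?_⟩
        rw [pow_one]
        rw [hP'] at hP'z
        linear_combination hP'z
      have hlt : P'.natDegree < P.natDegree := by
        have h1 : (C Q.leadingCoeff * P).degree = P.degree := degree_C_mul ha
        have hlcP : P.leadingCoeff ≠ 0 := leadingCoeff_ne_zero.mpr hP0
        have h2 : (C P.leadingCoeff * X ^ (P.natDegree - Q.natDegree) * Q).degree = P.degree := by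
          rw [mul_assoc, degree_C_mul hlcP, degree_mul, degree_X_pow, degree_eq_natDegree hQ0,
            degree_eq_natDegree hP0]
          norm_cast
          omega
        have h3 : (C Q.leadingCoeff * P).leadingCoeff =
            (C P.leadingCoeff * X ^ (P.natDegree - Q.natDegree) * Q).leadingCoeff := by
          rw [leadingCoeff_mul, leadingCoeff_mul, leadingCoeff_mul, leadingCoeff_C,
            leadingCoeff_C, leadingCoeff_X_pow, mul_one, mul_comm]
        have h4 : (C Q.leadingCoeff * P) ≠ 0 := mul_ne_zero (C_ne_zero.mpr ha) hP0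
        have h5 := degree_sub_lt_left (h1.trans h2.symm) h4 h3
        rw [← hP', h1] at h5
        exact natDegree_lt_natDegree hP'z h5
      obtain ⟨n, S, hS⟩ := ih _ (hd ▸ hlt) P' rfl hP'0
      refine ⟨n + 1, S + C (Q.leadingCoeff ^ n) * (C P.leadingCoeff *
        X ^ (P.natDegree - Q.natDegree)), ?_⟩
      rw [hP'] at hS
      rw [pow_succ, C_mul]
      linear_combination hS
  exact fun P hP => key _ P rfl hP

/-- One-generator step of the lifting lemma. -/
theorem exists_lift_step (A B : Subring L) (hAB : A ≤ B) (x : B)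
    (hgen : Function.Surjective (eval₂RingHom (Subring.inclusion hAB) x))
    (v : B) (hv : v ≠ 0) :
    ∃ u : A, u ≠ 0 ∧ ∀ (Ω : Type w) [Field Ω] [IsAlgClosed Ω] (f : A →+* Ω), f u ≠ 0 →
      ∃ g : B →+* Ω, g.comp (Subring.inclusion hAB) = f ∧ g v ≠ 0 := by
  obtain ⟨φ, hφ⟩ : ∃ φ : A[X] →+* B, φ = eval₂RingHom (Subring.inclusion hAB) x := ⟨_, rfl⟩
  rw [← hφ] at hgen
  have hφC : ∀ a : A, φ (C a) = Subring.inclusion hAB a := fun a => by
    rw [hφ, coe_eval₂RingHom, eval₂_C]
  have hincl : Function.Injective (Subring.inclusion hAB) := Subring.inclusion_injective hAB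
  by_cases hinj : Function.Injective φ
  · -- transcendental case
    obtain ⟨V, rfl⟩ := hgen v
    have hV0 : V ≠ 0 := fun h => hv (by rw [h, map_zero])
    refine ⟨V.leadingCoeff, leadingCoeff_ne_zero.mpr hV0, ?_⟩
    intro Ω _ _ f hf
    have hVf : V.map f ≠ 0 := by
      intro h
      apply hf
      have := congrArg (fun p => p.coeff V.natDegree) h
      simpa [coeff_map] using this
    obtain ⟨ξ, hξ⟩ : ∃ ξ : Ω, (V.map f).eval ξ ≠ 0 := by
      by_contra hcon
      push Not at hcon
      exact hVf (Polynomial.funext (by simpa using hcon))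
    let e : A[X] ≃+* B := RingEquiv.ofBijective φ ⟨hinj, hgen⟩
    refine ⟨(eval₂RingHom f ξ).comp e.symm.toRingHom, ?_, ?_⟩
    · ext a
      have h1 : e.symm (Subring.inclusion hAB a) = C a := by
        rw [RingEquiv.symm_apply_eq]
        exact (hφC a).symm
      simp only [RingHom.comp_apply, RingEquiv.toRingHom_eq_coe, RingHom.coe_coe]
      rw [h1, coe_eval₂RingHom, eval₂_C]
    · have h1 : e.symm (φ V) = V := by
        rw [RingEquiv.symm_apply_eq]
        rfl
      simp only [RingHom.comp_apply, RingEquiv.toRingHom_eq_coe, RingHom.coe_coe]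
      rw [h1, coe_eval₂RingHom, eval₂_eq_eval_map]
      exact hξ
  · -- algebraic case
    have hex : ∃ d : ℕ, ∃ Q : A[X], Q ≠ 0 ∧ φ Q = 0 ∧ Q.natDegree = d := by
      rw [injective_iff_map_eq_zero] at hinj
      push Not at hinj
      obtain ⟨Q, hQ, hQ0⟩ := hinj
      exact ⟨_, Q, hQ0, hQ, rfl⟩
    classical
    obtain ⟨Q, hQ0, hQ, hQd⟩ := Nat.find_spec hex
    have hmin : ∀ P : A[X], P ≠ 0 → φ P = 0 → Q.natDegree ≤ P.natDegree := by
      intro P hP0 hP
      rw [hQd]
      exact Nat.find_min' hex ⟨P, hP0, hP, rfl⟩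
    have ha : Q.leadingCoeff ≠ 0 := leadingCoeff_ne_zero.mpr hQ0
    have hdiv := exists_pow_mul_eq_mul_of_minimal φ Q hQ hmin hQ0
    have hQdeg : Q.degree ≠ 0 := by
      intro h0
      have h1 : Q = C (Q.coeff 0) := eq_C_of_degree_eq_zero h0
      have h2 : Q.coeff 0 ≠ 0 := fun h => hQ0 (by rw [h1, h, C_0])
      rw [h1, hφC] at hQ
      exact h2 (hincl (by rw [hQ, map_zero]))
    -- `v` divides a nonzero element of `A`
    let _ : Algebra A B := (Subring.inclusion hAB).toAlgebra
    have halgmap : ∀ a : A, algebraMap A B a = Subring.inclusion hAB a := fun _ => rfl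
    have hφaeval : ∀ P : A[X], φ P = aeval x P := fun P => by
      rw [hφ, coe_eval₂RingHom, aeval_def]
      rfl
    have hxalg : IsAlgebraic A x := ⟨Q, hQ0, by rw [← hφaeval, hQ]⟩
    have hvalg : IsAlgebraic A v := by
      obtain ⟨V, rfl⟩ := hgen v
      rw [hφaeval]
      have hmem : x ∈ Subalgebra.algebraicClosure A B := hxalg
      have : aeval x V ∈ Subalgebra.algebraicClosure A B := by
        rw [← Polynomial.aeval_subalgebra_coe V (Subalgebra.algebraicClosure A B) ⟨x, hmem⟩]
        exact Subtype.coe_prop _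
      exact this
    obtain ⟨c, hc0, w, hcw⟩ := hvalg.exists_nonzero_dvd (mem_nonZeroDivisors_of_ne_zero hv)
    refine ⟨Q.leadingCoeff * c, mul_ne_zero ha hc0, ?_⟩
    intro Ω _ _ f hf
    rw [map_mul] at hf
    have hfa : f Q.leadingCoeff ≠ 0 := left_ne_zero_of_mul hf
    have hfc : f c ≠ 0 := right_ne_zero_of_mul hf
    have hdegf : (Q.map f).degree ≠ 0 := by
      rw [degree_map_eq_of_leadingCoeff_ne_zero f hfa]
      exact hQdeg
    obtain ⟨ξ, hξ⟩ := IsAlgClosed.exists_root (Q.map f) hdegf
    have hξ' : eval₂ f ξ Q = 0 := by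
      rw [eval₂_eq_eval_map]
      exact hξ
    have hker : RingHom.ker φ ≤ RingHom.ker (eval₂RingHom f ξ) := by
      intro P hP
      rw [RingHom.mem_ker] at hP ⊢
      obtain ⟨n, S, hS⟩ := hdiv P hP
      have h1 := congrArg (eval₂RingHom f ξ) hS
      rw [map_mul, map_mul, coe_eval₂RingHom, eval₂_C, hξ', zero_mul, map_pow] at h1
      exact (mul_eq_zero.mp h1).resolve_left (pow_ne_zero n hfa)
    let g : B →+* Ω := RingHom.liftOfSurjective φ hgen ⟨eval₂RingHom f ξ, hker⟩
    have hg : ∀ P : A[X], g (φ P) = eval₂ f ξ P := fun P =>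
      RingHom.liftOfRightInverse_comp_apply φ _ (Function.rightInverse_surjInv hgen)
        ⟨eval₂RingHom f ξ, hker⟩ P
    have hgA : ∀ a : A, g (Subring.inclusion hAB a) = f a := fun a => by
      rw [← hφC, hg, eval₂_C]
    refine ⟨g, RingHom.ext hgA, ?_⟩
    intro hgv
    apply hfc
    have h2 : g (algebraMap A B c) = g v * g w := by rw [hcw, map_mul]
    rw [halgmap, hgA, hgv, zero_mul] at h2
    exact h2

/-- **Lifting lemma** (Atiyah–Macdonald 5.23), subrings of a field: if `B` is generated over `A`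
by a finite set and `v ≠ 0` in `B`, there is `u ≠ 0` in `A` such that every homomorphism from `A`
to an algebraically closed field not killing `u` extends to `B` without killing `v`. -/
theorem exists_lift_closure_finset (A : Subring L) (s : Finset L) :
    ∀ (B : Subring L), B = Subring.closure ((A : Set L) ∪ (s : Set L)) →
    ∀ (v : B), v ≠ 0 →
    ∃ u : A, u ≠ 0 ∧ ∀ (Ω : Type w) [Field Ω] [IsAlgClosed Ω] (f : A →+* Ω), f u ≠ 0 →
      ∃ g : B →+* Ω, (∀ (a : L) (ha : a ∈ A) (hb : a ∈ B), g ⟨a, hb⟩ = f ⟨a, ha⟩) ∧ g v ≠ 0 := by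
  classical
  induction s using Finset.induction_on with
  | empty =>
    intro B hB v hv
    have hBA : B = A := by
      rw [hB, Finset.coe_empty, Set.union_empty, Subring.closure_eq]
    have hle : B ≤ A := hBA.le
    refine ⟨⟨v, hle v.2⟩, fun h => hv (Subtype.ext (by simpa using congrArg Subtype.val h)), ?_⟩
    intro Ω _ _ f hf
    exact ⟨f.comp (Subring.inclusion hle), fun a ha hb => rfl, hf⟩
  | insert x s hxs ih =>
    intro B hB v hv
    obtain ⟨B', hB'⟩ : ∃ B' : Subring L, B' = Subring.closure ((A : Set L) ∪ (s : Set L)) :=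
      ⟨_, rfl⟩
    have hAB' : A ≤ B' := by
      rw [hB']
      exact fun a ha => Subring.subset_closure (Or.inl ha)
    have hB'B : B' ≤ B := by
      rw [hB', hB]
      apply Subring.closure_mono
      intro y hy
      rcases hy with hy | hy
      · exact Or.inl hy
      · exact Or.inr (by simp [Finset.mem_coe.mp hy])
    have hxB : x ∈ B := by
      rw [hB]
      exact Subring.subset_closure (Or.inr (by simp))
    -- every element of `B` is a polynomial in `x` over `B'`
    have hgen : Function.Surjective (eval₂RingHom (Subring.inclusion hB'B) ⟨x, hxB⟩) := by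
      have hle : B ≤ (eval₂RingHom B'.subtype x).range := by
        rw [hB, Subring.closure_le]
        intro y hy
        rcases hy with hy | hy
        · exact ⟨C ⟨y, hAB' hy⟩, by simp⟩
        · rcases Finset.mem_insert.mp (Finset.mem_coe.mp hy) with rfl | hys
          · exact ⟨X, by simp⟩
          · exact ⟨C ⟨y, by rw [hB']; exact Subring.subset_closure (Or.inr hys)⟩, by simp⟩
      intro b
      obtain ⟨P, hP⟩ := hle b.2
      refine ⟨P, Subtype.ext ?_⟩
      have h1 : (B.subtype.comp (Subring.inclusion hB'B)) = B'.subtype := rfl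
      have h2 := Polynomial.hom_eval₂ P (Subring.inclusion hB'B) B.subtype ⟨x, hxB⟩
      rw [h1] at h2
      rw [coe_eval₂RingHom] at hP ⊢
      exact h2.trans hP
    obtain ⟨u', hu'0, hu'⟩ := exists_lift_step.{w, _} B' B hB'B ⟨x, hxB⟩ hgen v hv
    obtain ⟨u, hu0, hu⟩ := ih B' hB' u' hu'0
    refine ⟨u, hu0, ?_⟩
    intro Ω _ _ f hf
    obtain ⟨g', hg', hg'u⟩ := hu Ω f hf
    obtain ⟨g, hg, hgv⟩ := hu' Ω g' hg'u
    refine ⟨g, ?_, hgv⟩
    intro a ha hb
    rw [← hg' a ha (hAB' ha), ← hg]
    rfl

end Fermat.Agent.S42.H59
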