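/-
Program A (S29 + S42), leaf KUMMER-INV (abstract form, Mathlib only).

`kummer_inv` : `k` algebraically closed, `C` a field over `k`, `F` a field over `k`, `M` a
fraction field of `C ⊗[k] F`.  If `1 ⊗ u = (a ⊗ 1) * w ^ p` in `M` (`u ∈ F`, `a ∈ Cˣ`, `w ∈ M`)
then `u = b • v ^ p` with `b ∈ kˣ` and `v ∈ F`.
-/
import Mathlib
import Fermat.Agent.S42.H59.Lift
import Fermat.Agent.S42.H59.Coeff

set_option autoImplicit false

namespace Fermat.Agent.S42.H59

open scoped TensorProduct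

universe uk uC uF uM

variable {k : Type uk} {C : Type uC} [Field k] [Field C] [Algebra k C]

/-- Nullstellensatz point: a finitely generated `k`-subalgebra of a field `C` has a `k`-point
not killing a given nonzero element (`k` algebraically closed). -/
theorem exists_point_k [IsAlgClosed k] (G : Finset C) (R₁ : Subalgebra k C)
    (hR₁ : R₁ = Algebra.adjoin k (G : Set C)) (v : R₁) (hv0 : v ≠ 0) :
    ∃ π : R₁ →ₐ[k] k, π v ≠ 0 := by
  classical
  obtain ⟨A, hA⟩ : ∃ A : Subring C, A = (algebraMap k C).range := ⟨_, rfl⟩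
  obtain ⟨B, hB⟩ : ∃ B : Subring C, B = Subring.closure ((A : Set C) ∪ (G : Set C)) := ⟨_, rfl⟩
  have hkA : ∀ a : k, algebraMap k C a ∈ A := fun a => by
    rw [hA]
    exact ⟨a, rfl⟩
  have hAB : A ≤ B := by
    rw [hB]
    exact fun a ha => Subring.subset_closure (Or.inl ha)
  have hR₁B : ∀ r ∈ R₁, r ∈ B := by
    intro r hr
    rw [hR₁] at hr
    induction hr using Algebra.adjoin_induction with
    | mem y hy =>
      rw [hB]
      exact Subring.subset_closure (Or.inr hy)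
    | algebraMap a => exact hAB (hkA a)
    | add y z _ _ hy hz => exact B.add_mem hy hz
    | mul y z _ _ hy hz => exact B.mul_mem hy hz
  have hvB : (⟨v, hR₁B v v.2⟩ : B) ≠ 0 := fun h =>
    hv0 (Subtype.ext (by simpa using congrArg Subtype.val h))
  obtain ⟨u, hu0, hu⟩ := exists_lift_closure_finset.{uk, uC} A G B hB ⟨v, hR₁B v v.2⟩ hvB
  -- the inverse of `k ≃ A`
  have hAle : A ≤ (algebraMap k C).range := le_of_eq hA
  have hAex : ∀ y : A, ∃ a : k, algebraMap k C a = y := fun y => hAle y.2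
  choose inv hinv using hAex
  have hinv' : ∀ a : k, ∀ h : algebraMap k C a ∈ A, inv ⟨algebraMap k C a, h⟩ = a := fun a h =>
    (algebraMap k C).injective (hinv ⟨algebraMap k C a, h⟩)
  obtain ⟨f, hf⟩ : ∃ f : A →+* k, ∀ y, f y = inv y := by
    refine ⟨{ toFun := inv, map_one' := ?_, map_mul' := ?_, map_zero' := ?_, map_add' := ?_ },
      fun y => rfl⟩
    · apply (algebraMap k C).injective
      rw [hinv, map_one]
      rfl
    · intro y z
      apply (algebraMap k C).injective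
      rw [hinv, map_mul, hinv, hinv]
      rfl
    · apply (algebraMap k C).injective
      rw [hinv, map_zero]
      rfl
    · intro y z
      apply (algebraMap k C).injective
      rw [hinv, map_add, hinv, hinv]
      rfl
  have hfu : f u ≠ 0 := by
    intro h
    apply hu0
    apply Subtype.ext
    rw [← hinv u, ← hf, h, map_zero]
    rfl
  obtain ⟨g, hg, hgv⟩ := hu k f hfu
  have hgk : ∀ (a : k) (h : algebraMap k C a ∈ B), g ⟨algebraMap k C a, h⟩ = a := by
    intro a h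
    rw [hg (algebraMap k C a) (hkA a) h, hf]
    exact hinv' a _
  obtain ⟨π₀, hπ₀⟩ : ∃ π₀ : R₁ →+* k, ∀ r : R₁, π₀ r = g ⟨r, hR₁B r r.2⟩ :=
    ⟨{ toFun := fun r => g ⟨r, hR₁B r r.2⟩
       map_one' := map_one g
       map_mul' := fun y z => map_mul g ⟨y, hR₁B y y.2⟩ ⟨z, hR₁B z z.2⟩
       map_zero' := map_zero g
       map_add' := fun y z => map_add g ⟨y, hR₁B y y.2⟩ ⟨z, hR₁B z z.2⟩ }, fun r => rfl⟩
  refine ⟨AlgHom.mk π₀ (fun a => ?_), ?_⟩
  · show π₀ (algebraMap k R₁ a) = a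
    rw [hπ₀]
    exact hgk a _
  · show π₀ v ≠ 0
    rw [hπ₀]
    exact hgv

variable (F : Type uF) [Field F] [Algebra k F]
variable (M : Type uM) [Field M] [Algebra (C ⊗[k] F) M] [IsFractionRing (C ⊗[k] F) M]

/-- **Kummer invariance.** See the file header. -/
theorem kummer_inv [IsAlgClosed k] (p : ℕ) (u : F) (a : C) (ha : a ≠ 0) (w : M)
    (h : algebraMap (C ⊗[k] F) M (1 ⊗ₜ[k] u) = algebraMap (C ⊗[k] F) M (a ⊗ₜ[k] 1) * w ^ p) :
    ∃ b : k, b ≠ 0 ∧ ∃ v : F, u = b • v ^ p := by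
  classical
  have hdom : IsDomain (C ⊗[k] F) :=
    Function.Injective.isDomain (algebraMap (C ⊗[k] F) M) (IsFractionRing.injective _ _)
  obtain ⟨alg, halg⟩ : ∃ alg : (C ⊗[k] F) →+* M, alg = algebraMap (C ⊗[k] F) M := ⟨_, rfl⟩
  have halg_inj : Function.Injective alg := by
    rw [halg]
    exact IsFractionRing.injective (C ⊗[k] F) M
  have halg0 : ∀ z : C ⊗[k] F, z ≠ 0 → alg z ≠ 0 := fun z hz h =>
    hz (halg_inj (by rw [h, map_zero]))
  obtain ⟨aw, bw, hbw, hw⟩ := IsFractionRing.div_surjective (A := C ⊗[k] F) w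
  have hbw0 : bw ≠ 0 := nonZeroDivisors.ne_zero hbw
  rw [← halg] at h hw
  -- identity in `C ⊗ F`
  have hid : (1 ⊗ₜ[k] u : C ⊗[k] F) * bw ^ p = (a ⊗ₜ[k] 1) * aw ^ p := by
    apply halg_inj
    simp only [map_mul, map_pow]
    rw [h, ← hw, div_pow]
    have h3 := pow_ne_zero p (halg0 bw hbw0)
    field_simp
  -- coefficients
  obtain ⟨Sa, hSa⟩ := exists_finset_mem_range (F := F) aw
  obtain ⟨Sb, hSb⟩ := exists_finset_mem_range (F := F) bw
  obtain ⟨G, hG⟩ : ∃ G : Finset C, G = insert a (Sa ∪ Sb) := ⟨_, rfl⟩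
  obtain ⟨R₁, hR₁⟩ : ∃ R₁ : Subalgebra k C, R₁ = Algebra.adjoin k (G : Set C) := ⟨_, rfl⟩
  have hGR₁ : (G : Set C) ⊆ R₁ := by
    rw [hR₁]
    exact Algebra.subset_adjoin
  have haR₁ : a ∈ R₁ := hGR₁ (by rw [hG]; simp)
  obtain ⟨aw₁, haw₁⟩ := hSa R₁ (fun y hy => hGR₁ (by
    rw [hG]; simp [Finset.mem_coe.mp hy]))
  obtain ⟨bw₁, hbw₁⟩ := hSb R₁ (fun y hy => hGR₁ (by
    rw [hG]; simp [Finset.mem_coe.mp hy]))
  have hinj : Function.Injective (cm F R₁.val) := cm_injective R₁.val Subtype.val_injective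
  have hid₁ : (1 ⊗ₜ[k] u : R₁ ⊗[k] F) * bw₁ ^ p = ((⟨a, haR₁⟩ : R₁) ⊗ₜ[k] 1) * aw₁ ^ p := by
    apply hinj
    simp only [map_mul, map_pow, cm_tmul, map_one]
    rw [haw₁, hbw₁]
    exact hid
  have hbw₁0 : bw₁ ≠ 0 := by
    intro h0
    apply hbw0
    rw [← hbw₁, h0, map_zero]
  obtain ⟨r, hr0, hr⟩ := exists_coord k bw₁ hbw₁0
  have ha₁0 : (⟨a, haR₁⟩ : R₁) ≠ 0 := fun h0 => ha (congrArg Subtype.val h0)
  obtain ⟨π, hπ⟩ := exists_point_k G R₁ hR₁ (⟨a, haR₁⟩ * r) (mul_ne_zero ha₁0 hr0)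
  rw [map_mul] at hπ
  have hπa : π ⟨a, haR₁⟩ ≠ 0 := left_ne_zero_of_mul hπ
  have hπr : π r ≠ 0 := right_ne_zero_of_mul hπ
  have hβ : cm F π bw₁ ≠ 0 := hr π hπr
  -- apply `π`, then `k ⊗ F ≃ F`
  have h1 := congrArg (cm F π) hid₁
  simp only [map_mul, map_pow, cm_tmul, map_one] at h1
  have h2 := congrArg (Algebra.TensorProduct.lid k F) h1
  simp only [map_mul, map_pow, Algebra.TensorProduct.lid_tmul, one_smul] at h2
  have hβ' : Algebra.TensorProduct.lid k F (cm F π bw₁) ≠ 0 := by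
    intro h0
    apply hβ
    exact (Algebra.TensorProduct.lid k F).injective (by rw [h0, map_zero])
  refine ⟨π ⟨a, haR₁⟩, hπa, Algebra.TensorProduct.lid k F (cm F π aw₁) /
    Algebra.TensorProduct.lid k F (cm F π bw₁), ?_⟩
  rw [div_pow, Algebra.smul_def, ← mul_div_assoc, eq_div_iff (pow_ne_zero p hβ'), h2,
    Algebra.smul_def, mul_one]

end Fermat.Agent.S42.H59
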