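/-
Program A (S29 + S42), leaf RIG, part 3: automorphisms of an algebraically closed field of
infinite transcendence degree moving a finite algebraically independent family to jointly
algebraically independent copies.
-/
import Mathlib

set_option autoImplicit false

namespace Fermat.Agent.S42.H59

variable {k C : Type*} [Field k] [Field C] [Algebra k C]

/-- A permutation of a transcendence basis of an algebraically closed field extends to a
`k`-automorphism. -/
theorem exists_algEquiv_of_perm [IsAlgClosed C] {κ : Type*} (v : κ → C)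
    (hv : IsTranscendenceBasis k v) (e : Equiv.Perm κ) :
    ∃ σ : C ≃ₐ[k] C, ∀ i, σ (v i) = v (e i) := by
  have : IsAlgClosure (Algebra.adjoin k (Set.range v)) C :=
    IsAlgClosed.isAlgClosure_of_transcendence_basis v hv
  let e₀ : Algebra.adjoin k (Set.range v) ≃ₐ[k] Algebra.adjoin k (Set.range v) :=
    hv.1.aevalEquiv.symm.trans ((MvPolynomial.renameEquiv k e).trans hv.1.aevalEquiv)
  let σ₀ : C ≃+* C := IsAlgClosure.equivOfEquiv C C e₀.toRingEquiv
  have h₀ : ∀ y : Algebra.adjoin k (Set.range v), σ₀ (y : C) = (e₀ y : C) := fun y =>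
    IsAlgClosure.equivOfEquiv_algebraMap C C e₀.toRingEquiv y
  have hcomm : ∀ a : k, σ₀ (algebraMap k C a) = algebraMap k C a := by
    intro a
    have h1 := h₀ (algebraMap k _ a)
    rw [AlgEquiv.commutes] at h1
    exact h1
  refine ⟨AlgEquiv.ofRingEquiv (f := σ₀) hcomm, ?_⟩
  intro i
  have hX : ∀ j, (hv.1.aevalEquiv (MvPolynomial.X j) : C) = v j := fun j => by
    rw [AlgebraicIndependent.aevalEquiv_apply_coe, MvPolynomial.aeval_X]
  have hmem : v i ∈ Algebra.adjoin k (Set.range v) := Algebra.subset_adjoin ⟨i, rfl⟩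
  have h1 : hv.1.aevalEquiv (MvPolynomial.X i) = ⟨v i, hmem⟩ := Subtype.ext (hX i)
  have h2 : e₀ ⟨v i, hmem⟩ = hv.1.aevalEquiv (MvPolynomial.X (e i)) := by
    rw [← h1]
    simp [e₀]
  have h3 := h₀ ⟨v i, hmem⟩
  rw [h2, hX] at h3
  exact h3

/-- **Independent copies.** If every transcendence basis of `C` over `k` is infinite, a finite
algebraically independent family `s` can be moved by `n + 1` automorphisms of `C` over `k` to a
jointly algebraically independent family. -/
theorem exists_autos [IsAlgClosed C]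
    (hinf : ∀ B : Set C, IsTranscendenceBasis k ((↑) : B → C) → B.Infinite)
    {ι : Type*} [Finite ι] (s : ι → C) (hs : AlgebraicIndependent k s) (n : ℕ) :
    ∃ σ : Fin (n + 1) → (C ≃ₐ[k] C),
      AlgebraicIndependent k (fun p : Fin (n + 1) × ι => σ p.1 (s p.2)) := by
  classical
  have hsinj : Function.Injective s := hs.injective
  have hs' : AlgebraicIndepOn k id (Set.range s) := by
    have := (algebraicIndependent_subtype_range (R := k) hsinj).mpr hs
    exact this
  obtain ⟨B, hsB, hB⟩ := exists_isTranscendenceBasis_superset hs'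
  have hBinf : Infinite B := (hinf B hB).to_subtype
  let b : ι → B := fun x => ⟨s x, hsB ⟨x, rfl⟩⟩
  have hb : Function.Injective b := fun x y h => hsinj (congrArg Subtype.val h)
  have hfin : (Set.range b).Finite := Set.finite_range b
  have : Infinite ↥(Set.range b)ᶜ := hfin.infinite_compl.to_subtype
  -- an injection of `Fin (n+1) × ι` into the complement of `range b`
  obtain ⟨m, ⟨em⟩⟩ := Finite.exists_equiv_fin (Fin (n + 1) × ι)
  let Φ : Fin (n + 1) × ι → ↥(Set.range b)ᶜ := fun p =>
    Infinite.natEmbedding ↥(Set.range b)ᶜ (em p : ℕ)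
  have hΦ : Function.Injective Φ := fun p q h =>
    em.injective (Fin.val_injective ((Infinite.natEmbedding _).injective h))
  let Ψ : Fin (n + 1) × ι → B := fun p => (Φ p : B)
  have hΨ : Function.Injective Ψ := fun p q h => hΦ (Subtype.ext h)
  have hΨb : ∀ p x, b x ≠ Ψ p := fun p x h => (Φ p).2 ⟨x, h⟩
  -- for each `j`, the permutation swapping `b x` and `Ψ (j, x)`
  have hperm : ∀ j : Fin (n + 1), ∃ σ : C ≃ₐ[k] C, ∀ x, σ (s x) = (Ψ (j, x) : C) := by
    intro j
    let g : ι ⊕ ι → B := Sum.elim b (fun x => Ψ (j, x))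
    have hg : Function.Injective g :=
      Function.Injective.sumElim hb (fun x y h => (Prod.ext_iff.mp (hΨ h)).2)
        (fun x y => hΨb (j, y) x)
    let π : Equiv.Perm B := Equiv.Perm.extendDomain (Equiv.sumComm ι ι) (Equiv.ofInjective g hg)
    have hπ : ∀ x, π (b x) = Ψ (j, x) := by
      intro x
      have h1 := Equiv.Perm.extendDomain_apply_image (Equiv.sumComm ι ι)
        (Equiv.ofInjective g hg) (Sum.inl x)
      simpa [π, g] using h1
    obtain ⟨σ, hσ⟩ := exists_algEquiv_of_perm ((↑) : B → C) hB π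
    refine ⟨σ, fun x => ?_⟩
    have h2 := hσ (b x)
    rw [hπ] at h2
    exact h2
  choose σ hσ using hperm
  refine ⟨σ, ?_⟩
  have h3 : (fun p : Fin (n + 1) × ι => σ p.1 (s p.2)) = ((↑) : B → C) ∘ Ψ := by
    funext p
    exact hσ p.1 p.2
  rw [h3]
  exact hB.1.comp Ψ hΨ

end Fermat.Agent.S42.H59
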