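/-
Program A (S29 + S42), leaf RIG, part 4: existence of a specialisation.

`exists_point` : `R₀` a `k`-subalgebra of an algebraically closed field `C`, `s'` a finite family
algebraically independent over `R₀`, `G` a finite set, `v ≠ 0` in `R₁ = k[R₀, s', G]`.  Then
there are `t : ι → k` and a `k`-algebra homomorphism `π : R₁ → C` which is the identity on `R₀`,
sends `s' x` to `t x`, and does not kill `v`.
-/
import Mathlib
import Fermat.Agent.S42.H59.Lift

set_option autoImplicit false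

namespace Fermat.Agent.S42.H59

universe uk uC

variable {k : Type uk} {C : Type uC} [Field k] [Field C] [Algebra k C]

/-- A nonzero polynomial over a subalgebra of `C` has a non-root with coordinates in `k`. -/
theorem exists_eval_ne_zero_of_infinite [Infinite k] (R₀ : Subalgebra k C) {ι : Type*}
    (U : MvPolynomial ι R₀) (hU : U ≠ 0) :
    ∃ t : ι → k, MvPolynomial.aeval (fun x => algebraMap k C (t x)) U ≠ 0 := by
  by_contra hcon
  push Not at hcon
  apply hU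
  have hinj : Function.Injective (algebraMap R₀ C) := Subtype.val_injective
  apply MvPolynomial.map_injective (algebraMap R₀ C) hinj
  rw [map_zero]
  have hset : ∀ _ : ι, (Set.range (algebraMap k C)).Infinite := fun _ =>
    Set.infinite_range_of_injective (algebraMap k C).injective
  apply MvPolynomial.funext_set (fun _ : ι => Set.range (algebraMap k C)) hset
  intro y hy
  have hy' : ∀ x, ∃ a : k, algebraMap k C a = y x := fun x => hy x (Set.mem_univ x)
  choose t ht using hy'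
  have h1 := hcon t
  rw [MvPolynomial.aeval_def, MvPolynomial.eval₂_eq_eval_map] at h1
  have h2 : (fun x => algebraMap k C (t x)) = y := funext ht
  rw [h2] at h1
  rw [h1, map_zero]

theorem exists_point [IsAlgClosed k] [IsAlgClosed C] (R₀ : Subalgebra k C) {ι : Type*}
    (s' : ι → C) (hs' : AlgebraicIndependent R₀ s') (G : Finset C)
    (R₁ : Subalgebra k C)
    (hR₁ : R₁ = Algebra.adjoin k ((R₀ : Set C) ∪ Set.range s' ∪ (G : Set C)))
    (v : C) (hv0 : v ≠ 0) (hv : v ∈ R₁) :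
    ∃ (t : ι → k) (π : R₁ →ₐ[k] C),
      (∀ (r : C) (_ : r ∈ R₀) (hr' : r ∈ R₁), π ⟨r, hr'⟩ = r) ∧
      (∀ (x : ι) (hx : s' x ∈ R₁), π ⟨s' x, hx⟩ = algebraMap k C (t x)) ∧
      π ⟨v, hv⟩ ≠ 0 := by
  classical
  -- the polynomial ring `A = R₀[s']` as a subring of `C`
  obtain ⟨A, hA⟩ : ∃ A : Subalgebra R₀ C, A = Algebra.adjoin R₀ (Set.range s') := ⟨_, rfl⟩
  let Asr : Subring C := A.toSubring
  obtain ⟨Bsr, hBsr⟩ : ∃ Bsr : Subring C, Bsr = Subring.closure ((Asr : Set C) ∪ (G : Set C)) :=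
    ⟨_, rfl⟩
  have hAB : Asr ≤ Bsr := by
    rw [hBsr]
    exact fun a ha => Subring.subset_closure (Or.inl ha)
  have hR₀A : ∀ r ∈ R₀, r ∈ Asr := fun r hr => A.algebraMap_mem ⟨r, hr⟩
  have hs'A : ∀ x, s' x ∈ Asr := fun x => by
    show s' x ∈ A
    rw [hA]
    exact Algebra.subset_adjoin ⟨x, rfl⟩
  have hkA : ∀ a : k, algebraMap k C a ∈ Asr := fun a => hR₀A _ (R₀.algebraMap_mem a)
  have hR₁B : ∀ r ∈ R₁, r ∈ Bsr := by
    intro r hr
    rw [hR₁] at hr
    induction hr using Algebra.adjoin_induction with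
    | mem y hy =>
      rcases hy with (hy | hy) | hy
      · exact hAB (hR₀A y hy)
      · obtain ⟨x, rfl⟩ := hy
        exact hAB (hs'A x)
      · rw [hBsr]
        exact Subring.subset_closure (Or.inr hy)
    | algebraMap a => exact hAB (hkA a)
    | add y z _ _ hy hz => exact Bsr.add_mem hy hz
    | mul y z _ _ hy hz => exact Bsr.mul_mem hy hz
  -- the lifting lemma
  have hvB : (⟨v, hR₁B v hv⟩ : Bsr) ≠ 0 := fun h => hv0 (congrArg Subtype.val h)
  obtain ⟨u, hu0, hu⟩ := exists_lift_closure_finset.{uC, uC} Asr G Bsr hBsr ⟨v, hR₁B v hv⟩ hvB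
  -- the polynomial corresponding to `u`
  have huA : (u : C) ∈ Algebra.adjoin R₀ (Set.range s') := by
    rw [← hA]
    exact u.2
  obtain ⟨U, hU⟩ : ∃ U : MvPolynomial ι R₀, U = hs'.aevalEquiv.symm ⟨u, huA⟩ := ⟨_, rfl⟩
  have hU0 : U ≠ 0 := by
    intro h
    rw [hU, map_eq_zero_iff _ (AlgEquiv.injective _)] at h
    exact hu0 (Subtype.ext (by simpa using congrArg Subtype.val h))
  obtain ⟨t, ht⟩ := exists_eval_ne_zero_of_infinite R₀ U hU0
  -- the homomorphism `A → C`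
  obtain ⟨ft, hft⟩ : ∃ ft : Algebra.adjoin R₀ (Set.range s') →ₐ[R₀] C, ∀ y, ft y =
      MvPolynomial.aeval (fun x => algebraMap k C (t x)) (hs'.aevalEquiv.symm y) :=
    ⟨(MvPolynomial.aeval (fun x => algebraMap k C (t x))).comp hs'.aevalEquiv.symm.toAlgHom,
      fun y => rfl⟩
  have hft_s : ∀ x (hx : s' x ∈ Algebra.adjoin R₀ (Set.range s')),
      ft ⟨s' x, hx⟩ = algebraMap k C (t x) := by
    intro x hx
    have h1 : hs'.aevalEquiv (MvPolynomial.X x) = ⟨s' x, hx⟩ := by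
      apply Subtype.ext
      rw [AlgebraicIndependent.aevalEquiv_apply_coe, MvPolynomial.aeval_X]
    have h2 : hs'.aevalEquiv.symm ⟨s' x, hx⟩ = MvPolynomial.X x := by
      rw [AlgEquiv.symm_apply_eq, h1]
    rw [hft, h2, MvPolynomial.aeval_X]
  have hft_r : ∀ (r : C) (hr : r ∈ R₀) (hr' : r ∈ Algebra.adjoin R₀ (Set.range s')),
      ft ⟨r, hr'⟩ = r := by
    intro r hr hr'
    have h1 : (⟨r, hr'⟩ : Algebra.adjoin R₀ (Set.range s')) =
        algebraMap R₀ (Algebra.adjoin R₀ (Set.range s')) ⟨r, hr⟩ := rfl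
    rw [h1, AlgHom.commutes]
    rfl
  have hft_u : ft ⟨u, huA⟩ ≠ 0 := by
    rw [hft, ← hU]
    exact ht
  -- as a ring hom on the subring `Asr`
  have hAmem : ∀ y : Asr, (y : C) ∈ Algebra.adjoin R₀ (Set.range s') := fun y => by
    rw [← hA]
    exact y.2
  obtain ⟨f, hf⟩ : ∃ f : Asr →+* C, ∀ y : Asr, f y = ft ⟨y, hAmem y⟩ :=
    ⟨{ toFun := fun y => ft ⟨y, hAmem y⟩
       map_one' := map_one ft
       map_mul' := fun y z => map_mul ft ⟨y, hAmem y⟩ ⟨z, hAmem z⟩
       map_zero' := map_zero ft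
       map_add' := fun y z => map_add ft ⟨y, hAmem y⟩ ⟨z, hAmem z⟩ }, fun y => rfl⟩
  have hfu : f u ≠ 0 := by
    rw [hf]
    exact hft_u
  obtain ⟨g, hg', hgv⟩ := hu C f hfu
  have hg : ∀ (a : C) (ha : a ∈ Asr), g ⟨a, hAB ha⟩ = ft ⟨a, hAmem ⟨a, ha⟩⟩ := fun a ha => by
    rw [hg' a ha (hAB ha), hf]
  -- restrict to `R₁`
  have hgk : ∀ (a : k) (h : algebraMap k C a ∈ Bsr), g ⟨algebraMap k C a, h⟩ = algebraMap k C a := by
    intro a h
    rw [hg (algebraMap k C a) (hkA a)]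
    exact hft_r _ (R₀.algebraMap_mem a) _
  let π₀ : R₁ →+* C :=
    { toFun := fun r => g ⟨r, hR₁B r r.2⟩
      map_one' := map_one g
      map_mul' := fun y z => map_mul g ⟨y, hR₁B y y.2⟩ ⟨z, hR₁B z z.2⟩
      map_zero' := map_zero g
      map_add' := fun y z => map_add g ⟨y, hR₁B y y.2⟩ ⟨z, hR₁B z z.2⟩ }
  have hπ₀ : ∀ (r : C) (hr : r ∈ R₁), π₀ ⟨r, hr⟩ = g ⟨r, hR₁B r hr⟩ := fun r hr => rfl
  let π : R₁ →ₐ[k] C := AlgHom.mk π₀ (fun a => hgk a _)
  have hπ : ∀ (r : C) (hr : r ∈ R₁), π ⟨r, hr⟩ = g ⟨r, hR₁B r hr⟩ := fun r hr => rfl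
  refine ⟨t, π, ?_, ?_, ?_⟩
  · intro r hr hr'
    rw [hπ, hg r (hR₀A r hr)]
    exact hft_r r hr _
  · intro x hx
    rw [hπ, hg (s' x) (hs'A x)]
    exact hft_s x _
  · rw [hπ]
    exact hgv

end Fermat.Agent.S42.H59
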