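/-
Program A (S29 + S42), leaf RIG, part 5: the specialisation step.

Given an identity `a * τ(b) * Bw^p = τ(a) * b * Aw^p` in `C ⊗[k] F`, where the coefficients of
`a, b` are algebraic over `k[s]` and `s`, `τ s` are jointly algebraically independent over `k`,
we specialise `τ s` to a point of `k` keeping the coefficients of `a, b` fixed and obtain
`a * (1 ⊗ xb) * β^p = (1 ⊗ xa) * b * α^p`.
-/
import Mathlib
import Fermat.Agent.S42.H59.Point
import Fermat.Agent.S42.H59.Coeff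

set_option autoImplicit false

namespace Fermat.Agent.S42.H59

open scoped TensorProduct

universe uk uC

variable {k : Type uk} {C : Type uC} [Field k] [Field C] [Algebra k C]

/-- An element of `C` which is a root of a nonzero polynomial over an algebraically closed
subfield `k` lies in `k`. -/
theorem mem_range_of_root [IsAlgClosed k] (q : Polynomial k) (hq : q ≠ 0) (y : C)
    (hy : Polynomial.aeval y q = 0) : y ∈ (algebraMap k C).range := by
  have halg : IsAlgebraic k y := ⟨q, hq, hy⟩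
  have hint : IsIntegral k y := halg.isIntegral
  have hmem : y ∈ integralClosure k C := hint
  obtain ⟨a, ha⟩ := (IsAlgClosed.algebraMap_bijective_of_isIntegral (k := k)
    (K := integralClosure k C)).2 ⟨y, hmem⟩
  exact ⟨a, by simpa using congrArg Subtype.val ha⟩

theorem exists_specialisation [IsAlgClosed k] [IsAlgClosed C] {F : Type*} [Field F] [Algebra k F]
    (S : Finset C) (R₀ : Subalgebra k C) (hR₀ : R₀ = Algebra.adjoin k (S : Set C))
    (a' b' : R₀ ⊗[k] F)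
    (u : Set C) (hu : u ⊆ (S : Set C))
    (halg : ∀ c ∈ S, IsAlgebraic (Algebra.adjoin k u) c)
    (τ : C →ₐ[k] C)
    (hτ : AlgebraicIndependent k (Sum.elim (fun x : u => τ (x : C)) (fun x : u => (x : C))))
    (Aw Bw : C ⊗[k] F) (hBw : Bw ≠ 0)
    (ha : cm F (τ.comp R₀.val) a' ≠ 0) (hb : cm F (τ.comp R₀.val) b' ≠ 0)
    (p : ℕ)
    (hid : cm F R₀.val a' * cm F (τ.comp R₀.val) b' * Bw ^ p =
           cm F (τ.comp R₀.val) a' * cm F R₀.val b' * Aw ^ p) :
    ∃ (xa xb : F) (α β : C ⊗[k] F), xa ≠ 0 ∧ xb ≠ 0 ∧ β ≠ 0 ∧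
      cm F R₀.val a' * (1 ⊗ₜ[k] xb) * β ^ p = (1 ⊗ₜ[k] xa) * cm F R₀.val b' * α ^ p := by
  classical
  have hufin : u.Finite := S.finite_toSet.subset hu
  have : Finite u := hufin.to_subtype
  obtain ⟨s', hs'⟩ : ∃ s' : u → C, s' = fun x : u => τ (x : C) := ⟨_, rfl⟩
  -- `ks = k[s]`
  obtain ⟨ks, hks⟩ : ∃ ks : Subalgebra k C, ks = Algebra.adjoin k u := ⟨_, rfl⟩
  have hksR : ks ≤ R₀ := by
    rw [hks, hR₀]
    exact Algebra.adjoin_mono hu
  have h1 : AlgebraicIndependent ks s' := by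
    have h := (AlgebraicIndependent.sumElim_iff (R := k) (x := fun x : u => (x : C))
      (y := fun x : u => τ (x : C))).mp hτ
    have hr : Set.range (fun x : u => (x : C)) = u := Subtype.range_coe
    rw [hr] at h
    rw [hks, hs']
    exact h.2
  rw [← hks] at halg
  -- `R₀` is algebraic over `ks`
  let _ : Algebra ks R₀ := (Subalgebra.inclusion hksR).toAlgebra
  have htower : IsScalarTower ks R₀ C := IsScalarTower.of_algebraMap_eq (fun x => rfl)
  have halgC : ∀ r ∈ R₀, IsAlgebraic ks r := by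
    intro r hr
    rw [hR₀] at hr
    have : r ∈ Subalgebra.algebraicClosure ks C := by
      induction hr using Algebra.adjoin_induction with
      | mem y hy => exact halg y hy
      | algebraMap a =>
        have h : algebraMap k C a = algebraMap ks C (algebraMap k ks a) := rfl
        rw [h]
        exact Subalgebra.algebraMap_mem _ _
      | add y z _ _ hy hz => exact Subalgebra.add_mem _ hy hz
      | mul y z _ _ hy hz => exact Subalgebra.mul_mem _ hy hz
    exact this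
  have hAlg : Algebra.IsAlgebraic ks R₀ := by
    constructor
    intro r
    have h := halgC r r.2
    exact (isAlgebraic_algebraMap_iff (A := C) (Subtype.val_injective)).mp h
  have h2 : AlgebraicIndependent R₀ s' := h1.extendScalars R₀
  -- coefficients of `Aw`, `Bw`
  obtain ⟨SA, hSA⟩ := exists_finset_mem_range (F := F) Aw
  obtain ⟨SB, hSB⟩ := exists_finset_mem_range (F := F) Bw
  obtain ⟨G, hG⟩ : ∃ G : Finset C, G = S.image τ ∪ (SA ∪ SB) := ⟨_, rfl⟩
  obtain ⟨R₁, hR₁⟩ : ∃ R₁ : Subalgebra k C,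
      R₁ = Algebra.adjoin k ((R₀ : Set C) ∪ Set.range s' ∪ (G : Set C)) := ⟨_, rfl⟩
  have hR₀R₁ : R₀ ≤ R₁ := by
    rw [hR₁]
    exact fun r hr => Algebra.subset_adjoin (Or.inl (Or.inl hr))
  have hGR₁ : ∀ y ∈ G, y ∈ R₁ := by
    intro y hy
    rw [hR₁]
    exact Algebra.subset_adjoin (Or.inr hy)
  have hs'R₁ : ∀ x, s' x ∈ R₁ := by
    intro x
    rw [hR₁]
    exact Algebra.subset_adjoin (Or.inl (Or.inr ⟨x, rfl⟩))
  have hτR₁ : ∀ r ∈ R₀, τ r ∈ R₁ := by
    intro r hr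
    rw [hR₀] at hr
    induction hr using Algebra.adjoin_induction with
    | mem y hy =>
      apply hGR₁
      rw [hG]
      exact Finset.mem_union_left _ (Finset.mem_image_of_mem τ hy)
    | algebraMap a =>
      rw [AlgHom.commutes]
      exact R₁.algebraMap_mem a
    | add y z _ _ hy hz =>
      rw [map_add]
      exact R₁.add_mem hy hz
    | mul y z _ _ hy hz =>
      rw [map_mul]
      exact R₁.mul_mem hy hz
  obtain ⟨A₁, hA₁⟩ := hSA R₁ (fun y hy => hGR₁ y (by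
    rw [hG]; exact Finset.mem_union_right _ (Finset.mem_union_left _ hy)))
  obtain ⟨B₁, hB₁⟩ := hSB R₁ (fun y hy => hGR₁ y (by
    rw [hG]; exact Finset.mem_union_right _ (Finset.mem_union_right _ hy)))
  -- the two maps `R₀ → R₁`
  obtain ⟨θ₀, hθ₀⟩ : ∃ θ₀ : R₀ →ₐ[k] R₁, R₁.val.comp θ₀ = R₀.val :=
    ⟨Subalgebra.inclusion hR₀R₁, rfl⟩
  obtain ⟨θτ, hθτ⟩ : ∃ θτ : R₀ →ₐ[k] R₁, R₁.val.comp θτ = τ.comp R₀.val :=
    ⟨(τ.comp R₀.val).codRestrict R₁ (fun r => hτR₁ r r.2), rfl⟩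
  have hθ₀' : ∀ r : R₀, (θ₀ r : C) = r := fun r => congrArg (fun φ => φ r) hθ₀
  have hθτ' : ∀ r : R₀, (θτ r : C) = τ r := fun r => congrArg (fun φ => φ r) hθτ
  -- the identity in `R₁ ⊗ F`
  have hinj : Function.Injective (cm F R₁.val) := cm_injective R₁.val Subtype.val_injective
  have hid₁ : cm F θ₀ a' * cm F θτ b' * B₁ ^ p = cm F θτ a' * cm F θ₀ b' * A₁ ^ p := by
    apply hinj
    simp only [map_mul, map_pow]
    rw [← cm_comp, ← cm_comp, ← cm_comp, ← cm_comp, hθ₀, hθτ, hA₁, hB₁]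
    exact hid
  have hta : cm F θτ a' ≠ 0 := by
    intro h
    apply ha
    rw [← hθτ, cm_comp, h, map_zero]
  have htb : cm F θτ b' ≠ 0 := by
    intro h
    apply hb
    rw [← hθτ, cm_comp, h, map_zero]
  have hB₁0 : B₁ ≠ 0 := by
    intro h
    apply hBw
    rw [← hB₁, h, map_zero]
  obtain ⟨r₁, hr₁0, hr₁⟩ := exists_coord C (cm F θτ a') hta
  obtain ⟨r₂, hr₂0, hr₂⟩ := exists_coord C (cm F θτ b') htb
  obtain ⟨r₃, hr₃0, hr₃⟩ := exists_coord C B₁ hB₁0
  -- polynomials for the elements of `S`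
  have hq : ∀ c : C, ∃ q : Polynomial ks, q ≠ 0 ∧ (c ∈ S → Polynomial.aeval c q = 0) := by
    intro c
    by_cases hc : c ∈ S
    · obtain ⟨q, hq0, hq⟩ := halg c hc
      exact ⟨q, hq0, fun _ => hq⟩
    · exact ⟨1, one_ne_zero, fun h => (hc h).elim⟩
  choose q hq0 hq using hq
  obtain ⟨ℓ, hℓ⟩ : ∃ ℓ : C → R₁, ∀ c, (ℓ c : C) = τ ((q c).leadingCoeff : C) :=
    ⟨fun c => ⟨τ ((q c).leadingCoeff : C), hτR₁ _ (hksR (q c).leadingCoeff.2)⟩, fun c => rfl⟩
  have hℓ0 : ∀ c, ℓ c ≠ 0 := by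
    intro c h
    have h1 := congrArg Subtype.val h
    rw [hℓ] at h1
    have h2 : ((q c).leadingCoeff : C) = 0 := by
      apply τ.toRingHom.injective
      simpa using h1
    exact hq0 c (Polynomial.leadingCoeff_eq_zero.mp (Subtype.ext h2))
  obtain ⟨v, hv⟩ : ∃ v : R₁, v = r₁ * r₂ * r₃ * ∏ c ∈ S, ℓ c := ⟨_, rfl⟩
  have hv0 : (v : C) ≠ 0 := by
    intro h
    have h' : v = 0 := Subtype.ext h
    rw [hv] at h'
    have hne : r₁ * r₂ * r₃ * ∏ c ∈ S, ℓ c ≠ 0 :=
      mul_ne_zero (mul_ne_zero (mul_ne_zero hr₁0 hr₂0) hr₃0)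
        (Finset.prod_ne_zero_iff.mpr (fun c _ => hℓ0 c))
    exact hne h'
  obtain ⟨t, π, hπR₀, hπs', hπv⟩ := exists_point R₀ s' h2 G R₁ hR₁ (v : C) hv0 v.2
  have hπv' : π v ≠ 0 := hπv
  rw [hv, map_mul, map_mul, map_mul, map_prod] at hπv'
  have hπr₁ : π r₁ ≠ 0 := left_ne_zero_of_mul (left_ne_zero_of_mul (left_ne_zero_of_mul hπv'))
  have hπr₂ : π r₂ ≠ 0 := right_ne_zero_of_mul (left_ne_zero_of_mul (left_ne_zero_of_mul hπv'))
  have hπr₃ : π r₃ ≠ 0 := right_ne_zero_of_mul (left_ne_zero_of_mul hπv')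
  have hπℓ : ∀ c ∈ S, π (ℓ c) ≠ 0 := fun c hc =>
    (Finset.prod_ne_zero_iff.mp (right_ne_zero_of_mul hπv')) c hc
  -- `π ∘ θ₀` is the inclusion
  have hπθ₀ : π.comp θ₀ = R₀.val := by
    ext r
    have h := hπR₀ (r : C) r.2 (hR₀R₁ r.2)
    have h' : θ₀ r = ⟨(r : C), hR₀R₁ r.2⟩ := Subtype.ext (hθ₀' r)
    rw [AlgHom.comp_apply, h', h]
    rfl
  -- `π ∘ θτ` has values in `k`
  obtain ⟨ψ, hψ⟩ : ∃ ψ : R₀ →ₐ[k] C, ψ = π.comp θτ := ⟨_, rfl⟩
  have hψs : ∀ (x : u) (hx : (x : C) ∈ R₀), ψ ⟨x, hx⟩ = algebraMap k C (t x) := by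
    intro x hx
    have hsx : s' x = τ (x : C) := by rw [hs']
    have h' : θτ ⟨x, hx⟩ = ⟨s' x, hs'R₁ x⟩ := by
      apply Subtype.ext
      rw [hθτ']
      exact hsx.symm
    rw [hψ, AlgHom.comp_apply, h']
    exact hπs' x _
  have hψks : ∀ y ∈ ks, ∀ hy : y ∈ R₀, ψ ⟨y, hy⟩ ∈ (algebraMap k C).range := by
    intro y hyks
    rw [hks] at hyks
    induction hyks using Algebra.adjoin_induction with
    | mem y hy =>
      intro hy'
      exact ⟨t ⟨y, hy⟩, (hψs ⟨y, hy⟩ hy').symm⟩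
    | algebraMap a =>
      intro hy'
      have h : (⟨algebraMap k C a, hy'⟩ : R₀) = algebraMap k R₀ a := rfl
      rw [h, AlgHom.commutes]
      exact ⟨a, rfl⟩
    | add y z hy hz ihy ihz =>
      intro hy'
      have hyR : y ∈ R₀ := by rw [hR₀]; exact Algebra.adjoin_mono hu hy
      have hzR : z ∈ R₀ := by rw [hR₀]; exact Algebra.adjoin_mono hu hz
      have h : (⟨y + z, hy'⟩ : R₀) = ⟨y, hyR⟩ + ⟨z, hzR⟩ := rfl
      rw [h, map_add]
      exact (algebraMap k C).range.add_mem (ihy hyR) (ihz hzR)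
    | mul y z hy hz ihy ihz =>
      intro hy'
      have hyR : y ∈ R₀ := by rw [hR₀]; exact Algebra.adjoin_mono hu hy
      have hzR : z ∈ R₀ := by rw [hR₀]; exact Algebra.adjoin_mono hu hz
      have h : (⟨y * z, hy'⟩ : R₀) = ⟨y, hyR⟩ * ⟨z, hzR⟩ := rfl
      rw [h, map_mul]
      exact (algebraMap k C).range.mul_mem (ihy hyR) (ihz hzR)
  have hψS : ∀ c ∈ S, ∀ hc : c ∈ R₀, ψ ⟨c, hc⟩ ∈ (algebraMap k C).range := by
    intro c hcS hc
    -- the ring hom `ks → C`
    obtain ⟨ρ, hρ⟩ : ∃ ρ : ks →+* C, ρ = ψ.toRingHom.comp (algebraMap ks R₀) := ⟨_, rfl⟩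
    have hρrange : ∀ y : ks, ρ y ∈ (algebraMap k C).range := by
      intro y
      rw [hρ]
      exact hψks y y.2 (hksR y.2)
    have hroot : Polynomial.eval₂ ρ (ψ ⟨c, hc⟩) (q c) = 0 := by
      have h0 : Polynomial.eval₂ (algebraMap ks R₀) (⟨c, hc⟩ : R₀) (q c) = 0 := by
        apply Subtype.val_injective
        have h3 := Polynomial.hom_eval₂ (q c) (algebraMap ks R₀) (algebraMap R₀ C) ⟨c, hc⟩
        have h4 : (algebraMap R₀ C).comp (algebraMap ks R₀) = algebraMap ks C := rfl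
        rw [h4] at h3
        have h5 := hq c hcS
        rw [Polynomial.aeval_def] at h5
        exact h3.trans h5
      have h6 := Polynomial.hom_eval₂ (q c) (algebraMap ks R₀) ψ.toRingHom ⟨c, hc⟩
      rw [h0, map_zero] at h6
      rw [hρ]
      exact h6.symm
    have hlifts : (q c).map ρ ∈ Polynomial.lifts (algebraMap k C) := by
      rw [Polynomial.lifts_iff_coeff_lifts]
      intro n
      rw [Polynomial.coeff_map]
      exact hρrange _
    obtain ⟨q₀, hq₀'⟩ := hlifts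
    have hq₀ : q₀.map (algebraMap k C) = (q c).map ρ := hq₀'
    have hlc : ρ (q c).leadingCoeff ≠ 0 := by
      have h7 : ρ (q c).leadingCoeff = π (ℓ c) := by
        rw [hρ, RingHom.comp_apply]
        show ψ (algebraMap ks R₀ (q c).leadingCoeff) = _
        rw [hψ, AlgHom.comp_apply]
        congr 1
        apply Subtype.ext
        rw [hθτ', hℓ]
        rfl
      rw [h7]
      exact hπℓ c hcS
    have hmap0 : (q c).map ρ ≠ 0 := by
      intro h
      apply hlc
      have := congrArg (fun P => P.coeff (q c).natDegree) h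
      simpa [Polynomial.coeff_map] using this
    have hq₀0 : q₀ ≠ 0 := by
      intro h
      apply hmap0
      rw [← hq₀, h, Polynomial.map_zero]
    apply mem_range_of_root q₀ hq₀0
    rw [Polynomial.aeval_def, Polynomial.eval₂_eq_eval_map, hq₀, ← Polynomial.eval₂_eq_eval_map]
    exact hroot
  have hψR : ∀ r : R₀, ψ r ∈ (algebraMap k C).range := by
    have key : ∀ y ∈ Algebra.adjoin k (S : Set C), ∀ hy : y ∈ R₀,
        ψ ⟨y, hy⟩ ∈ (algebraMap k C).range := by
      intro y hyS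
      induction hyS using Algebra.adjoin_induction with
      | mem y hy => exact fun hy' => hψS y hy hy'
      | algebraMap a =>
        intro hy'
        have h : (⟨algebraMap k C a, hy'⟩ : R₀) = algebraMap k R₀ a := rfl
        rw [h, AlgHom.commutes]
        exact ⟨a, rfl⟩
      | add y z hy hz ihy ihz =>
        intro hy'
        have hyR : y ∈ R₀ := by rw [hR₀]; exact hy
        have hzR : z ∈ R₀ := by rw [hR₀]; exact hz
        have h : (⟨y + z, hy'⟩ : R₀) = ⟨y, hyR⟩ + ⟨z, hzR⟩ := rfl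
        rw [h, map_add]
        exact (algebraMap k C).range.add_mem (ihy hyR) (ihz hzR)
      | mul y z hy hz ihy ihz =>
        intro hy'
        have hyR : y ∈ R₀ := by rw [hR₀]; exact hy
        have hzR : z ∈ R₀ := by rw [hR₀]; exact hz
        have h : (⟨y * z, hy'⟩ : R₀) = ⟨y, hyR⟩ * ⟨z, hzR⟩ := rfl
        rw [h, map_mul]
        exact (algebraMap k C).range.mul_mem (ihy hyR) (ihz hzR)
    intro r
    have hr : (r : C) ∈ Algebra.adjoin k (S : Set C) := by
      rw [← hR₀]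
      exact r.2
    exact key r hr r.2
  obtain ⟨xa, hxa⟩ := exists_cm_eq_one_tmul (F := F) ψ hψR a'
  obtain ⟨xb, hxb⟩ := exists_cm_eq_one_tmul (F := F) ψ hψR b'
  -- apply `π` to the identity
  have hfin := congrArg (cm F π) hid₁
  simp only [map_mul, map_pow] at hfin
  rw [← cm_comp, ← cm_comp, ← cm_comp, ← cm_comp, hπθ₀, ← hψ, hxa, hxb] at hfin
  have hπa : cm F π (cm F θτ a') ≠ 0 := hr₁ π hπr₁
  have hπb : cm F π (cm F θτ b') ≠ 0 := hr₂ π hπr₂
  rw [← cm_comp, ← hψ, hxa] at hπa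
  rw [← cm_comp, ← hψ, hxb] at hπb
  refine ⟨xa, xb, cm F π A₁, cm F π B₁, ?_, ?_, hr₃ π hπr₃, hfin⟩
  · intro h
    apply hπa
    rw [h, TensorProduct.tmul_zero]
  · intro h
    apply hπb
    rw [h, TensorProduct.tmul_zero]

end Fermat.Agent.S42.H59
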