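/-
Program A (S29 + S42), leaf RIG: rigidity of Kummer classes under extension of an algebraically
closed constant field (abstract form, Mathlib only).

Setting: `k ⊆ C` algebraically closed fields, `C` of infinite transcendence degree over `k`,
`F` a field over `k`, `M` a fraction field of `C ⊗[k] F`.  `act F M σ` is the action of
`σ ∈ Aut(C/k)` on `M` (through `σ ⊗ id`).

* `rig` : if `P` is an `Aut(C/k)`-stable property of elements of `M` and `c : M → X` a colouring
  with finitely many colours such that two elements with property `P` and the same colour differ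
  by a `p`-th power, then every `f ≠ 0` with `P f` is `(1 ⊗ u₀) * w ^ p` with `u₀ ∈ F`.
* `kummer_inv` : if `1 ⊗ u = (a ⊗ 1) * w ^ p` in `M` then `u = b • v ^ p` with `b ∈ k`, `v ∈ F`.
-/
import Mathlib
import Fermat.Agent.S42.H59.Spec
import Fermat.Agent.S42.H59.Autos

set_option autoImplicit false

namespace Fermat.Agent.S42.H59

open scoped TensorProduct

universe uk uC uF uM

variable {k : Type uk} {C : Type uC} [Field k] [Field C] [Algebra k C]

/-- A finite set of elements of `C` contains an algebraically independent subset over which all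
its elements are algebraic. -/
theorem exists_indep_subset (S : Finset C) :
    ∃ u : Set C, u ⊆ (S : Set C) ∧ AlgebraicIndepOn k id u ∧
      ∀ c ∈ S, IsAlgebraic (Algebra.adjoin k u) c := by
  have h0 : AlgebraicIndepOn k id (∅ : Set C) := by
    apply algebraicIndependent_empty_type_iff.mpr
    exact (algebraMap k C).injective
  obtain ⟨u, -, hu⟩ := exists_maximal_algebraicIndependent (R := k) (∅ : Set C) (S : Set C)
    (Set.empty_subset _) h0
  refine ⟨u, hu.1.2, hu.1.1, ?_⟩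
  intro c hc
  by_cases hcu : c ∈ u
  · have : c = algebraMap (Algebra.adjoin k u) C ⟨c, Algebra.subset_adjoin hcu⟩ := rfl
    rw [this]
    exact isAlgebraic_algebraMap _
  · by_contra hna
    have htr : Transcendental (Algebra.adjoin k (id '' u)) (id c) := by
      rw [Set.image_id]
      exact hna
    have h1 : AlgebraicIndepOn k id (insert c u) :=
      (AlgebraicIndepOn.insert_iff hcu).mpr ⟨hu.1.1, htr⟩
    have h2 : insert c u ⊆ (S : Set C) := Set.insert_subset hc hu.1.2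
    have h3 : insert c u ≤ u := hu.2 ⟨h1, h2⟩ (Set.subset_insert c u)
    exact hcu (h3 (Set.mem_insert c u))

variable (F : Type uF) [Field F] [Algebra k F]

/-- The ring automorphism `σ ⊗ id` of `C ⊗[k] F`. -/
noncomputable def tensAut (σ : C ≃ₐ[k] C) : (C ⊗[k] F) ≃+* (C ⊗[k] F) :=
  (Algebra.TensorProduct.congr σ (AlgEquiv.refl (R := k) (A₁ := F))).toRingEquiv

theorem tensAut_apply (σ : C ≃ₐ[k] C) (z : C ⊗[k] F) :
    tensAut F σ z = cm F (σ : C →ₐ[k] C) z := by
  induction z using TensorProduct.induction_on with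
  | zero => simp
  | tmul c x => simp [tensAut]
  | add a b ha hb => rw [map_add, map_add, ha, hb]

variable (M : Type uM) [Field M] [Algebra (C ⊗[k] F) M] [IsFractionRing (C ⊗[k] F) M]

/-- The action of `Aut(C/k)` on a fraction field `M` of `C ⊗[k] F`. -/
noncomputable def act (σ : C ≃ₐ[k] C) : M ≃+* M :=
  IsFractionRing.ringEquivOfRingEquiv (tensAut F σ)

theorem act_algebraMap (σ : C ≃ₐ[k] C) (z : C ⊗[k] F) :
    act F M σ (algebraMap (C ⊗[k] F) M z) =
      algebraMap (C ⊗[k] F) M (cm F (σ : C →ₐ[k] C) z) := by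
  rw [act, IsFractionRing.ringEquivOfRingEquiv_algebraMap, tensAut_apply]

/-- **Rigidity.** See the file header. -/
theorem rig [IsAlgClosed k] [IsAlgClosed C]
    (hinf : ∀ B : Set C, IsTranscendenceBasis k ((↑) : B → C) → B.Infinite)
    (p : ℕ) (hp : p ≠ 0) (P : M → Prop)
    (hP : ∀ (σ : C ≃ₐ[k] C) (u : M), P u → P (act F M σ u))
    {X : Type*} [Finite X] (c : M → X)
    (hc : ∀ u u' : M, P u → P u' → c u = c u' → ∃ w : M, w ≠ 0 ∧ u = u' * w ^ p)
    (f : M) (hf0 : f ≠ 0) (hf : P f) :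
    ∃ u₀ : F, u₀ ≠ 0 ∧ ∃ w : M, w ≠ 0 ∧
      f = algebraMap (C ⊗[k] F) M (1 ⊗ₜ[k] u₀) * w ^ p := by
  classical
  have hdom : IsDomain (C ⊗[k] F) :=
    Function.Injective.isDomain (algebraMap (C ⊗[k] F) M) (IsFractionRing.injective _ _)
  obtain ⟨alg, halg⟩ : ∃ alg : (C ⊗[k] F) →+* M, alg = algebraMap (C ⊗[k] F) M := ⟨_, rfl⟩
  have halg_inj : Function.Injective alg := by
    rw [halg]
    exact IsFractionRing.injective (C ⊗[k] F) M
  have halg0 : ∀ z : C ⊗[k] F, z ≠ 0 → alg z ≠ 0 := fun z hz h =>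
    hz (halg_inj (by rw [h, map_zero]))
  have hfrac : ∀ m : M, ∃ a b : C ⊗[k] F, b ≠ 0 ∧ m = alg a / alg b := by
    intro m
    obtain ⟨a, b, hb, h⟩ := IsFractionRing.div_surjective (A := C ⊗[k] F) m
    exact ⟨a, b, nonZeroDivisors.ne_zero hb, by rw [halg, h]⟩
  -- `f = a / b`
  obtain ⟨a, b, hb0, hfab⟩ := hfrac f
  have ha0 : a ≠ 0 := by
    intro h
    apply hf0
    rw [hfab, h, map_zero, zero_div]
  -- coefficients
  obtain ⟨Sa, hSa⟩ := exists_finset_mem_range (F := F) a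
  obtain ⟨Sb, hSb⟩ := exists_finset_mem_range (F := F) b
  obtain ⟨S, hS⟩ : ∃ S : Finset C, S = Sa ∪ Sb := ⟨_, rfl⟩
  obtain ⟨R₀, hR₀⟩ : ∃ R₀ : Subalgebra k C, R₀ = Algebra.adjoin k (S : Set C) := ⟨_, rfl⟩
  have hSR₀ : (S : Set C) ⊆ R₀ := by
    rw [hR₀]
    exact Algebra.subset_adjoin
  obtain ⟨a', ha'⟩ := hSa R₀ (fun y hy => hSR₀ (by
    rw [hS]; exact Finset.mem_coe.mpr (Finset.mem_union_left _ (Finset.mem_coe.mp hy))))
  obtain ⟨b', hb'⟩ := hSb R₀ (fun y hy => hSR₀ (by
    rw [hS]; exact Finset.mem_coe.mpr (Finset.mem_union_right _ (Finset.mem_coe.mp hy))))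
  -- a maximal independent subset of the coefficients
  obtain ⟨u, hu, hind, halgu⟩ := exists_indep_subset (k := k) S
  have hufin : u.Finite := S.finite_toSet.subset hu
  have : Finite u := hufin.to_subtype
  -- automorphisms and pigeonhole
  obtain ⟨σ, hσ⟩ := exists_autos hinf (fun x : u => (x : C)) hind (Nat.card X)
  obtain ⟨i, j, hij, hcij⟩ : ∃ i j : Fin (Nat.card X + 1), i ≠ j ∧
      c (act F M (σ i) f) = c (act F M (σ j) f) := by
    by_contra hcon
    push Not at hcon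
    have hinj : Function.Injective (fun i : Fin (Nat.card X + 1) => c (act F M (σ i) f)) :=
      fun i j h => by_contra (fun hne => hcon i j hne h)
    have h1 := Nat.card_le_card_of_injective _ hinj
    rw [Nat.card_eq_fintype_card, Fintype.card_fin] at h1
    omega
  obtain ⟨w, hw0, hw⟩ := hc _ _ (hP (σ i) f hf) (hP (σ j) f hf) hcij
  obtain ⟨aw, bw, hbw0, hwab⟩ := hfrac w
  have hact : ∀ τ : C ≃ₐ[k] C, act F M τ f =
      alg (cm F (τ : C →ₐ[k] C) a) / alg (cm F (τ : C →ₐ[k] C) b) := by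
    intro τ
    rw [hfab, map_div₀, halg, act_algebraMap, act_algebraMap]
  have hcminj : ∀ τ : C ≃ₐ[k] C, Function.Injective (cm F (τ : C →ₐ[k] C)) := fun τ =>
    cm_injective _ τ.injective
  have hcm0 : ∀ (τ : C ≃ₐ[k] C) (z : C ⊗[k] F), z ≠ 0 → cm F (τ : C →ₐ[k] C) z ≠ 0 :=
    fun τ z hz h => hz (hcminj τ (by rw [h, map_zero]))
  -- the cross-multiplied identity in `C ⊗ F`
  have hcross : cm F (σ i : C →ₐ[k] C) a * cm F (σ j : C →ₐ[k] C) b * bw ^ p =
      cm F (σ j : C →ₐ[k] C) a * cm F (σ i : C →ₐ[k] C) b * aw ^ p := by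
    apply halg_inj
    simp only [map_mul, map_pow]
    rw [hact, hact, hwab] at hw
    have h1 := halg0 _ (hcm0 (σ i) b hb0)
    have h2 := halg0 _ (hcm0 (σ j) b hb0)
    have h3 := halg0 _ hbw0
    rw [div_pow, div_mul_div_comm, div_eq_div_iff h1 (mul_ne_zero h2 (pow_ne_zero p h3))] at hw
    linear_combination hw
  -- apply `σ i ⁻¹`
  obtain ⟨τ, hτ⟩ : ∃ τ : C →ₐ[k] C,
      τ = ((σ i).symm : C →ₐ[k] C).comp (σ j : C →ₐ[k] C) := ⟨_, rfl⟩
  have hsymm : ∀ z : C ⊗[k] F,
      cm F ((σ i).symm : C →ₐ[k] C) (cm F (σ i : C →ₐ[k] C) z) = z := by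
    intro z
    rw [← cm_comp]
    have h1 : ((σ i).symm : C →ₐ[k] C).comp (σ i : C →ₐ[k] C) = AlgHom.id k C := by
      ext y
      simp
    rw [h1, cm_id]
  have hcross' := congrArg (cm F ((σ i).symm : C →ₐ[k] C)) hcross
  simp only [map_mul, map_pow] at hcross'
  rw [hsymm, hsymm, ← cm_comp, ← cm_comp, ← hτ] at hcross'
  obtain ⟨Bw, hBw⟩ : ∃ Bw : C ⊗[k] F, Bw = cm F ((σ i).symm : C →ₐ[k] C) bw := ⟨_, rfl⟩
  obtain ⟨Aw, hAw⟩ : ∃ Aw : C ⊗[k] F, Aw = cm F ((σ i).symm : C →ₐ[k] C) aw := ⟨_, rfl⟩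
  rw [← hBw, ← hAw] at hcross'
  have hBw0 : Bw ≠ 0 := by
    rw [hBw]
    exact hcm0 (σ i).symm bw hbw0
  have hτinj : Function.Injective τ := by
    rw [hτ]
    exact (σ i).symm.injective.comp (σ j).injective
  have hτa : cm F τ a ≠ 0 := fun h => ha0 (cm_injective τ hτinj (by rw [h, map_zero]))
  have hτb : cm F τ b ≠ 0 := fun h => hb0 (cm_injective τ hτinj (by rw [h, map_zero]))
  rw [← ha', ← hb', ← cm_comp, ← cm_comp] at hcross'
  rw [← ha', ← cm_comp] at hτa
  rw [← hb', ← cm_comp] at hτb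
  -- joint independence of `s` and `τ s`
  have hτind : AlgebraicIndependent k
      (Sum.elim (fun x : u => τ (x : C)) (fun x : u => (x : C))) := by
    obtain ⟨g, hg⟩ : ∃ g : u ⊕ u → Fin (Nat.card X + 1) × u,
        g = Sum.elim (fun x => (j, x)) (fun x => (i, x)) := ⟨_, rfl⟩
    have hginj : Function.Injective g := by
      rw [hg]
      rintro (x | x) (y | y) h
      · exact congrArg Sum.inl (Prod.ext_iff.mp h).2
      · exact (hij (Prod.ext_iff.mp h).1.symm).elim
      · exact (hij (Prod.ext_iff.mp h).1).elim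
      · exact congrArg Sum.inr (Prod.ext_iff.mp h).2
    have h1 := hσ.comp g hginj
    have h2 := h1.map' (f := ((σ i).symm : C →ₐ[k] C)) (σ i).symm.injective
    have h3 : ((σ i).symm : C →ₐ[k] C) ∘ ((fun q : Fin (Nat.card X + 1) × u =>
        (σ q.1) ((q.2 : u) : C)) ∘ g) =
        Sum.elim (fun x : u => τ (x : C)) (fun x : u => (x : C)) := by
      funext y
      rcases y with x | x
      · rw [hg, hτ]
        rfl
      · rw [hg]
        exact (σ i).symm_apply_apply (x : C)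
    rw [h3] at h2
    exact h2
  obtain ⟨xa, xb, α, β, hxa, hxb, hβ, hfinal⟩ := exists_specialisation S R₀ hR₀ a' b' u hu
    halgu τ hτind Aw Bw hBw0 hτa hτb p hcross'
  rw [ha', hb'] at hfinal
  -- conclusion
  have hunit : ∀ x : F, x ≠ 0 → (1 ⊗ₜ[k] x : C ⊗[k] F) ≠ 0 := by
    intro x hx h
    have h1 : (1 ⊗ₜ[k] x : C ⊗[k] F) * (1 ⊗ₜ[k] x⁻¹) = 1 := by
      rw [Algebra.TensorProduct.tmul_mul_tmul, mul_one, mul_inv_cancel₀ hx]
      rfl
    rw [h, zero_mul] at h1
    exact zero_ne_one h1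
  have hα : α ≠ 0 := by
    intro h
    rw [h, zero_pow hp, mul_zero] at hfinal
    exact (mul_ne_zero (mul_ne_zero ha0 (hunit xb hxb)) (pow_ne_zero p hβ)) hfinal
  refine ⟨xa / xb, div_ne_zero hxa hxb, alg α / alg β,
    div_ne_zero (halg0 α hα) (halg0 β hβ), ?_⟩
  have hsplit : (1 ⊗ₜ[k] xa : C ⊗[k] F) = (1 ⊗ₜ[k] (xa / xb)) * (1 ⊗ₜ[k] xb) := by
    rw [Algebra.TensorProduct.tmul_mul_tmul, mul_one, div_mul_cancel₀ xa hxb]
  have hfinal' := congrArg alg hfinal
  rw [hsplit] at hfinal'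
  simp only [map_mul, map_pow] at hfinal'
  have h1 := halg0 b hb0
  have h2 := halg0 β hβ
  have h3 := halg0 _ (hunit xb hxb)
  rw [hfab, ← halg, div_pow, ← mul_div_assoc, div_eq_div_iff h1 (pow_ne_zero p h2)]
  apply mul_left_cancel₀ h3
  linear_combination hfinal'

end Fermat.Agent.S42.H59
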