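/-
Program A (S42 / S29): the two descent leaves of `Fermat.Agent.S42.H96.Skeleton`,

* `leafRigAlg : LeafRigAlg N p`   (rigidity; `p ≠ 0`)
* `leafDesc   : LeafDesc N p`     (a `p`-th power in `M_ℂ` of an element of `F` is one in `F`)

obtained by instantiating the abstract theorems `rig` and `kummer_inv` of this directory at
`k = ℚ̄`, `C = ℂ` (through `S24.iota`), `F = FF N`, `M = MC N`, using the linear disjointness
package `Fermat.Agent.S42.H11` (`baseMap`, `algebraTensor`, `isFractionRing`, `act_eq_coeffMap`).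
-/
import Mathlib
import Fermat.Agent.S42.H96.Skeleton
import Fermat.Agent.S42.H11.FracAdapter
import Fermat.Agent.S42.H59.Rig
import Fermat.Agent.S42.H59.Kummer

set_option autoImplicit false

open ModularCurve TensorProduct
open Fermat.Agent.S24 Fermat.Agent.S42.H96 Fermat.Agent.S42.H11

noncomputable section

namespace Fermat.Agent.S42.H59

/-- Every transcendence basis of `ℂ` over `ι(ℚ̄)` is infinite. -/
theorem infinite_transcendenceBasis_iota :
    letI : Algebra Kbar ℂ := iota.toAlgebra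
    ∀ B : Set ℂ, IsTranscendenceBasis Kbar ((↑) : B → ℂ) → B.Infinite := by
  let _ : Algebra Kbar ℂ := iota.toAlgebra
  intro B hB
  have hk : Cardinal.mk Kbar ≤ Cardinal.aleph0 := by
    have halg : Algebra.IsAlgebraic ℚ (AlgebraicClosure ℚ) := AlgebraicClosure.isAlgebraic ℚ
    refine (Algebra.IsAlgebraic.cardinalMk_le_max ℚ (AlgebraicClosure ℚ)).trans ?_
    simp
  have hC : Cardinal.aleph0 < Cardinal.mk ℂ := by
    rw [Cardinal.mk_complex]
    exact Cardinal.aleph0_lt_continuum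
  have hcard : Cardinal.mk ℂ = Cardinal.mk B :=
    IsAlgClosed.cardinal_eq_cardinal_transcendence_basis_of_aleph0_lt' _ hB hk hC
  have hinf : Infinite B := by
    rw [Cardinal.infinite_iff, ← hcard]
    exact hC.le
  exact Set.infinite_coe_iff.mp hinf

/-- The abstract action `act` of `σ ∈ Aut(ℂ/ℚ̄)` on `M_ℂ = Frac(ℂ ⊗ F)` is the arithmetic
Galois action `sigM` of the underlying `ℚ`-automorphism. -/
theorem act_eq_sigM (N : ℕ) :
    letI : Algebra Kbar ℂ := iota.toAlgebra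
    letI := algebraTensor Kbar ℂ (modularFunctionFieldFull N)
    haveI := isFractionRing Kbar ℂ (modularFunctionFieldFull N)
    ∀ σ : ℂ ≃ₐ[Kbar] ℂ, ∃ σ' : ℂ ≃ₐ[ℚ] ℂ, (∀ a : Kbar, σ' (iota a) = iota a) ∧
      ∀ z : MC N, act (FF N) (MC N) σ z = sigM N σ' z := by
  let _ : Algebra Kbar ℂ := iota.toAlgebra
  let _ := algebraTensor Kbar ℂ (modularFunctionFieldFull N)
  have := isFractionRing Kbar ℂ (modularFunctionFieldFull N)
  intro σ
  obtain ⟨σ', hσ'⟩ : ∃ σ' : ℂ ≃ₐ[ℚ] ℂ, ∀ c : ℂ, σ' c = σ c :=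
    ⟨AlgEquiv.ofRingEquiv (f := σ.toRingEquiv) (fun q => by
      rw [eq_ratCast, map_ratCast]), fun c => rfl⟩
  have hfix : ∀ a : Kbar, σ (algebraMap Kbar ℂ a) = algebraMap Kbar ℂ a := fun a => σ.commutes a
  refine ⟨σ', fun a => (hσ' _).trans (hfix a), fun z => ?_⟩
  apply Subtype.ext
  have h1 := act_eq_coeffMap Kbar ℂ (modularFunctionFieldFull N) (σ : ℂ →+* ℂ) hfix
    ((act (FF N) (MC N) σ : MC N ≃+* MC N) : MC N →+* MC N) (fun c x => by
      have h2 := act_algebraMap (FF N) (MC N) σ (c ⊗ₜ[Kbar] x)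
      rw [cm_tmul] at h2
      exact h2) z
  refine h1.trans ?_
  show coeffMap (σ : ℂ →+* ℂ) (z : LaurentSeries ℂ) = coeffMap (σ' : ℂ →+* ℂ) (z : LaurentSeries ℂ)
  exact coeffMap_congr (RingHom.ext fun c => (hσ' c).symm) _

/-- **Skeleton leaf 11** (rigidity). -/
theorem leafRigAlg (N p : ℕ) (hp : p ≠ 0) : LeafRigAlg N p := by
  classical
  let _ : Algebra Kbar ℂ := iota.toAlgebra
  let _ := algebraTensor Kbar ℂ (modularFunctionFieldFull N)
  have := isFractionRing Kbar ℂ (modularFunctionFieldFull N)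
  intro P T hT κ hPσ hκ f hf0 hPf
  have : Finite T := hT
  obtain ⟨u₀, -, w, hw, hfw⟩ := rig (FF N) (MC N) infinite_transcendenceBasis_iota p hp
    (fun g => g ≠ 0 ∧ P g)
    (fun σ u hu => by
      obtain ⟨σ', hσ', hact⟩ := act_eq_sigM N σ
      refine ⟨fun h0 => hu.1 ((act (FF N) (MC N) σ).injective (by rw [h0, map_zero])), ?_⟩
      rw [hact u]
      exact hPσ σ' hσ' u hu.1 hu.2)
    κ (fun u u' hu hu' hc => hκ u u' hu.1 hu'.1 hu.2 hu'.2 hc) f hf0 ⟨hf0, hPf⟩
  refine ⟨u₀, baseIncl Kbar ℂ (modularFunctionFieldFull N) u₀, w, rfl, hw, ?_⟩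
  rw [hfw]
  congr 1
  show baseMap Kbar ℂ (modularFunctionFieldFull N) (1 ⊗ₜ u₀) = _
  rw [baseMap_tmul, map_one, one_mul]

/-- **Skeleton leaf 12** (Kummer descent of `p`-th powers). -/
theorem leafDesc (N p : ℕ) : LeafDesc N p := by
  classical
  let _ : Algebra Kbar ℂ := iota.toAlgebra
  let _ := algebraTensor Kbar ℂ (modularFunctionFieldFull N)
  have := isFractionRing Kbar ℂ (modularFunctionFieldFull N)
  intro u g w hbase hgw
  have hgu : baseIncl Kbar ℂ (modularFunctionFieldFull N) u = g := Subtype.ext hbase.symm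
  rcases Nat.eq_zero_or_pos p with rfl | hp
  · refine ⟨1, ?_⟩
    rw [pow_zero] at hgw ⊢
    apply baseIncl_injective Kbar ℂ (modularFunctionFieldFull N)
    rw [hgu, hgw, map_one]
  · have h : algebraMap (ℂ ⊗[Kbar] FF N) (MC N) (1 ⊗ₜ[Kbar] u)
        = algebraMap (ℂ ⊗[Kbar] FF N) (MC N) ((1 : ℂ) ⊗ₜ[Kbar] (1 : FF N)) * w ^ p := by
      show baseMap Kbar ℂ (modularFunctionFieldFull N) (1 ⊗ₜ u)
        = baseMap Kbar ℂ (modularFunctionFieldFull N) (1 ⊗ₜ 1) * w ^ p
      rw [baseMap_tmul, baseMap_tmul, hgu, hgw]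
      simp only [map_one, one_mul]
    obtain ⟨b, -, v, hv⟩ := kummer_inv (FF N) (MC N) p u (1 : ℂ) one_ne_zero w h
    obtain ⟨c, hc⟩ := IsAlgClosed.exists_pow_nat_eq b hp
    refine ⟨algebraMap Kbar (FF N) c * v, ?_⟩
    rw [mul_pow, ← map_pow, hc, hv, Algebra.smul_def]

end Fermat.Agent.S42.H59
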